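import Fermat.Agent.F4.UC.KLevel
import Fermat.Agent.F4.UC.Res
import Fermat.Agent.F4.Shapiro.R2

/-!
# F4 / UC : glue between the `K`-level statements and the hypotheses of `F4/Shapiro/R2.lean`

* `UC.H1p0`, `UC.F4sm`, `UC.KF4`, `UCData.kF4` : the left-nondegeneracy (existence theorem mod `p`);
* `UC.depHH2_of_KF1`            : `KF1 𝓥 L → DepHH2 𝓥 L`;
* `UC.cupNondegRight_of_KF3`    : `KF3 (𝓤.sub U) (K.res U.subtype) → CupNondegRight U K 𝓤`;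
* `UC.cupNondegLeft_of_KF4`     : `KF4 (𝓤.sub U) (K.res U.subtype) → CupNondegLeft U K 𝓤`;
* `UCData.depHH2_res`, `UCData.cupNondegRight_res`, `UCData.cupNondegLeft_res` : the same, directly
  from a datum `D : UCData p K C I Q` over `G` and the formation-level statements over `U`.
-/

set_option autoImplicit false
set_option linter.unusedSectionVars false

open CategoryTheory groupCohomology

namespace Fermat.Agent.F4

variable {G : Type} [Group G]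

namespace UC

/-- `H¹(C)[p] = 0` on cocycles. -/
def H1p0 (p : ℕ) (𝓤 : Levels G) (C : Rep.{0} ℤ G) : Prop :=
  ∀ c : G → C, c ∈ Z1 𝓤 C → (fun g => (p : ℤ) • c g) ∈ B1 C → c ∈ B1 C

lemma H90sm.h1p0 {p : ℕ} {𝓤 : Levels G} {C : Rep.{0} ℤ G} (h : H90sm 𝓤 C) : H1p0 p 𝓤 C :=
  fun c hc _ => h c hc

/-- Left nondegeneracy of `C^G/p × Hom(G, 𝔽_p) → H²(C)` (existence theorem mod `p`): an invariant
`x` with `x ∪ δχ` a coboundary for all smooth characters `χ` is divisible by `p` in `C^G`. -/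
def F4sm (p : ℕ) (𝓤 : Levels G) (C : Rep.{0} ℤ G) : Prop :=
  ∀ x : C, (∀ g, C.ρ g x = x) →
    (∀ χ : G → ZMod p, (∀ g h, χ (g * h) = χ g + χ h) → IsLC₁ 𝓤 χ → carryCo C χ x ∈ B2 𝓤 C) →
    ∃ x' : C, (∀ g, C.ρ g x' = x') ∧ x = (p : ℤ) • x'

/-- Left nondegeneracy of the cup product `HH¹(K) × Hom(G, 𝔽_p) → HH²(K)`. -/
def KF4 {p : ℕ} (𝓤 : Levels G) (K : Cx (ZMod p) G) : Prop :=
  ∀ z : T1 K, z ∈ ZZ1 𝓤 K →
    (∀ χ : G → ZMod p, (∀ g h, χ (g * h) = χ g + χ h) → IsLC₁ 𝓤 χ → cupχ z χ ∈ BB2 𝓤 K) →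
    z ∈ BB1 K

end UC

namespace UCData

variable {p : ℕ} {K : Cx (ZMod p) G} {C I Q : Rep.{0} ℤ G} (D : UCData p K C I Q)
  {𝓤 : Levels G} (hI : IsSmooth 𝓤 I)

/-- The image in `H¹(C)` of a 1-cocycle of `K` is killed by `p`. -/
lemma Rel1.p_smul_mem_B1 {D : UCData p K C I Q} (hI : IsSmooth 𝓤 I) {z : T1 K} {c : G → C}
    (h : D.Rel1 z c) (hz : z ∈ ZZ1 𝓤 K) (hc : c ∈ Z1 𝓤 C) :
    (fun g => (p : ℤ) • c g) ∈ B1 C := by
  have h1 : (p : ℤ) • D.β1 hI (HH1π 𝓤 K ⟨z, hz⟩) = 0 := by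
    rw [← map_zsmul, p_smul_HH1, map_zero]
  rw [D.β1_mk hI ⟨z, hz⟩ ⟨c, hc⟩ h, ← map_zsmul, UC.H1smπ_eq_zero_iff] at h1
  exact h1

include D hI

/-- If `H¹(C)[p] = 0`, every 1-cocycle of `K` is `α¹` of an invariant, on the nose. -/
theorem exists_rel1α_of_H1p0 (h : UC.H1p0 p 𝓤 C) {z : T1 K} (hz : z ∈ ZZ1 𝓤 K) :
    ∃ x : C, (∀ g, C.ρ g x = x) ∧ D.Rel1α x z := by
  obtain ⟨c, hc, hrel⟩ := Rel1.exists D hI hz
  exact hrel.ker (h c hc (hrel.p_smul_mem_B1 hI hz hc))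

/-- A 1-cocycle of `K` attached to a `p`-divisible invariant is a coboundary. -/
theorem mem_BB1_of_rel1α {x x' : C} (hx' : ∀ g, C.ρ g x' = x') (hxx' : x = (p : ℤ) • x')
    {z : T1 K} (hz : z ∈ ZZ1 𝓤 K) (hrel : D.Rel1α x z) : z ∈ BB1 K := by
  have hx : ∀ g, C.ρ g x = x := by
    intro g
    rw [hxx', map_zsmul, hx']
  have h1 : D.α1 hI ⟨x, hx⟩ = HH1π 𝓤 K ⟨z, hz⟩ := D.α1_mk hI ⟨x, hx⟩ ⟨z, hz⟩ hrel
  have h2 : D.α1 hI ⟨x, hx⟩ = 0 :=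
    (D.α1_eq_zero_iff hI ⟨x, hx⟩).2 ⟨⟨x', hx'⟩, Subtype.ext hxx'⟩
  rw [h1, HH1π_eq_zero_iff] at h2
  exact h2

/-- **K-F4** from `H¹(C)[p] = 0` and the formation-level left nondegeneracy `F4sm`. -/
theorem kF4 [NeZero p] (h1 : UC.H1p0 p 𝓤 C) (hF4 : UC.F4sm p 𝓤 C) : UC.KF4 𝓤 K := by
  intro z hz hcup
  obtain ⟨x, hx, hrel⟩ := D.exists_rel1α_of_H1p0 hI h1 hz
  obtain ⟨x', hx', hxx'⟩ := hF4 x hx fun χ hχ hχLC => by
    have h := Rel2.mem_B2 hI (rel2_cupχ hrel hχ hχLC) (hcup χ hχ hχLC)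
    have h' := Submodule.neg_mem _ h
    have e : (-fun q => -UC.carryCo C χ x q) = UC.carryCo C χ x := by
      funext q; simp
    rwa [e] at h'
  exact D.mem_BB1_of_rel1α hI hx' hxx' hz hrel

end UCData

/-! ### The shapes of `F4/Shapiro/R2.lean` -/

namespace UC

variable {p : ℕ} [Fact p.Prime]

/-- `KF1 → DepHH2`. -/
theorem depHH2_of_KF1 {𝓥 : Levels G} {L : Cx (ZMod p) G} (h : KF1 𝓥 L) : DepHH2 𝓥 L :=
  fun y₁ y₂ => h y₁.1 y₂.1 y₁.2 y₂.2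

variable (U : Subgroup G) [Fintype (G ⧸ U)] (K : Cx (ZMod p) G) {𝓤 : Levels G}

/-- A smooth 1-cocycle with trivial coefficients is an additive character. -/
lemma char_of_mem_Z1 {H : Type} [Group H] {𝓥 : Levels H}
    (χ : ↥(Z1 𝓥 (Rep.trivial (ZMod p) H (ZMod p)))) :
    (∀ g h : H, (χ.1 (g * h) : ZMod p) = χ.1 g + χ.1 h) ∧
      IsLC₁ 𝓥 (fun g => (χ.1 g : ZMod p)) := by
  refine ⟨fun g h => ?_, χ.2.2⟩
  have := (mem_cocycles₁_iff (χ : H → Rep.trivial (ZMod p) H (ZMod p))).1 χ.2.1 g h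
  rw [this, add_comm]
  rfl

/-- `KF3 → CupNondegRight`. -/
theorem cupNondegRight_of_KF3 (h : KF3 (𝓤.sub U) (K.res U.subtype)) : CupNondegRight U K 𝓤 := by
  intro χ hχ
  obtain ⟨hhom, hLC⟩ := char_of_mem_Z1 χ
  have hne : (fun g => (χ.1 g : ZMod p)) ≠ 0 := by
    intro h0
    apply hχ
    apply Subtype.ext
    exact h0
  obtain ⟨z, hz, hzχ⟩ := h (fun g => (χ.1 g : ZMod p)) hhom hLC hne
  exact ⟨⟨z, hz⟩, hzχ⟩

/-- `KF4 → CupNondegLeft`. -/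
theorem cupNondegLeft_of_KF4 (h : KF4 (𝓤.sub U) (K.res U.subtype)) : CupNondegLeft U K 𝓤 := by
  intro z hz
  refine h z.1 z.2 fun χ hχ hχLC => ?_
  have hmem : (fun g => (χ g : Rep.trivial (ZMod p) ↥U (ZMod p)))
      ∈ Z1 (𝓤.sub U) (Rep.trivial (ZMod p) ↥U (ZMod p)) := by
    refine ⟨(mem_cocycles₁_iff _).2 fun g h => ?_, hχLC⟩
    show χ (g * h) = χ h + χ g
    rw [hχ g h, add_comm]
  exact hz ⟨_, hmem⟩

end UC

namespace UCData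

variable {p : ℕ} [Fact p.Prime] {K : Cx (ZMod p) G} {C I Q : Rep.{0} ℤ G}
  (D : UCData p K C I Q) {𝓤 : Levels G} (hI : IsSmooth 𝓤 I) (U : Subgroup G)
  [Fintype (G ⧸ U)]

include D hI

/-- `dim HH²(U, K) ≤ 1` from Hilbert 90 and `F1sm` over `U`. -/
theorem depHH2_res (h90 : UC.H90sm (𝓤.sub U) (Rep.res U.subtype C))
    (hF1 : UC.F1sm p (𝓤.sub U) (Rep.res U.subtype C)) :
    DepHH2 (𝓤.sub U) (K.res U.subtype) :=
  UC.depHH2_of_KF1 ((D.res U.subtype).kF1 (UC.isSmooth_res U.subtype hI) h90 hF1)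

/-- Right nondegeneracy of the cup product over `U` from `F3sm` over `U`. -/
theorem cupNondegRight_res (hF3 : UC.F3sm p (𝓤.sub U) (Rep.res U.subtype C)) :
    CupNondegRight U K 𝓤 :=
  UC.cupNondegRight_of_KF3 U K ((D.res U.subtype).kF3 (UC.isSmooth_res U.subtype hI) hF3)

/-- Left nondegeneracy of the cup product over `U` from `H¹(U, C)[p] = 0` and `F4sm` over `U`. -/
theorem cupNondegLeft_res (h1 : UC.H1p0 p (𝓤.sub U) (Rep.res U.subtype C))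
    (hF4 : UC.F4sm p (𝓤.sub U) (Rep.res U.subtype C)) :
    CupNondegLeft U K 𝓤 :=
  UC.cupNondegLeft_of_KF4 U K ((D.res U.subtype).kF4 (UC.isSmooth_res U.subtype hI) h1 hF4)

end UCData

end Fermat.Agent.F4
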