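import Fermat.Agent.F4.UC.Defs
import Fermat.Agent.F4.Coind.Section
import Fermat.Agent.F4.Coind.Prod

/-!
# F4 / UC / Coind : universal-coefficient data for coinduced modules and for products
(helper89; for DICT/GLOB: the datum of `KJ = ∏_q coInd K_q`)

* `coIndAdd u hu` : the map `coInd A → coInd B` induced by an equivariant additive map `u : A → B`
  (the coefficient rings of `A` and `B` may differ);
* `coIndAdd_surjective` : smooth coinduction is right exact: if `u` is surjective and `A` is smooth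
  for the pulled-back levels, `coIndAdd u` is surjective;
* `UCData.coInd` : `UCData p K C I Q` over `D`  ⟹  `UCData p (K.coInd r 𝓤) (coInd C) (coInd I) (coInd Q)`;
* `UCData.pi` : products of universal-coefficient data;
* `UCData.coindPi` : both together, the shape of `coindKJ`.
-/

set_option autoImplicit false
set_option linter.unusedSectionVars false

open CategoryTheory groupCohomology

namespace Fermat.Agent.F4

/-! ### maps between coinduced modules -/

section CoIndAdd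

variable {k k' D G : Type} [CommRing k] [CommRing k'] [Group D] [Group G]
  {r : D →* G} {𝓤 : Levels G}

/-- The map on coinduced functions induced by an equivariant additive map. -/
def coIndAdd {A : Rep.{0} k D} {B : Rep.{0} k' D} (u : A →+ B)
    (hu : ∀ (d : D) (a : A), u (A.ρ d a) = B.ρ d (u a)) :
    ↥(coIndSub r 𝓤 A) →+ ↥(coIndSub r 𝓤 B) where
  toFun φ := ⟨fun x => u ((φ : G → A) x), by
    refine ⟨fun d x => ?_, (coIndSub_isLC φ).comp u⟩
    show u ((φ : G → A) (r d * x)) = _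
    rw [coIndSub_equivariant, hu]⟩
  map_zero' := Subtype.ext (funext fun x => by
    show u ((0 : G → A) x) = _
    rw [Pi.zero_apply, map_zero]; rfl)
  map_add' φ ψ := Subtype.ext (funext fun x => by
    show u ((φ : G → A) x + (ψ : G → A) x) = _
    rw [map_add]; rfl)

@[simp] lemma coIndAdd_apply {A : Rep.{0} k D} {B : Rep.{0} k' D} (u : A →+ B)
    (hu : ∀ (d : D) (a : A), u (A.ρ d a) = B.ρ d (u a)) (φ : ↥(coIndSub r 𝓤 A)) (x : G) :
    ((coIndAdd (r := r) (𝓤 := 𝓤) u hu φ : ↥(coIndSub r 𝓤 B)) : G → B) x = u ((φ : G → A) x) :=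
  rfl

lemma coIndAdd_injective {A : Rep.{0} k D} {B : Rep.{0} k' D} (u : A →+ B)
    (hu : ∀ (d : D) (a : A), u (A.ρ d a) = B.ρ d (u a)) (hinj : Function.Injective u) :
    Function.Injective (coIndAdd (r := r) (𝓤 := 𝓤) u hu) := by
  intro φ ψ h
  refine Subtype.ext (funext fun x => hinj ?_)
  exact congrFun (congrArg Subtype.val h) x

/-- A coinduced function with values in the image of an injective equivariant map comes from a
coinduced function. -/
lemma coIndAdd_exists_of_forall {A : Rep.{0} k D} {B : Rep.{0} k' D} (u : A →+ B)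
    (hu : ∀ (d : D) (a : A), u (A.ρ d a) = B.ρ d (u a)) (hinj : Function.Injective u)
    (ψ : ↥(coIndSub r 𝓤 B)) (h : ∀ x, ∃ a : A, u a = (ψ : G → B) x) :
    ∃ φ : ↥(coIndSub r 𝓤 A), coIndAdd (r := r) (𝓤 := 𝓤) u hu φ = ψ := by
  choose f hf using h
  refine ⟨⟨f, fun d x => hinj ?_, ?_⟩, Subtype.ext (funext hf)⟩
  · rw [hf, hu, hf, coIndSub_equivariant]
  · obtain ⟨U, hU, hψ⟩ := coIndSub_isLC ψ
    exact ⟨U, hU, fun g s hs => hinj (by rw [hf, hf, hψ g s hs])⟩

end CoIndAdd

/-! ### smooth coinduction is right exact -/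

section Surj

variable {k k' D G : Type} [CommRing k] [CommRing k'] [Group D] [Group G]
  {r : D →* G} {𝓤 : Levels G}

/-- A translate of an element fixed by `r⁻¹(W)`, `W` normal, is fixed by `r⁻¹(W)`. -/
lemma ucCoind_fixed_translate {A : Rep.{0} k D} {W : Subgroup G} [hW : W.Normal] {a : A}
    (ha : ∀ d : D, r d ∈ W → A.ρ d a = a) (e : D) :
    ∀ d : D, r d ∈ W → A.ρ d (A.ρ e a) = A.ρ e a := by
  intro d hd
  have h1 : r (e⁻¹ * d * e) ∈ W := by
    rw [map_mul, map_mul, map_inv]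
    have := hW.conj_mem (r d) hd (r e)⁻¹
    simpa using this
  have h2 : d * e = e * (e⁻¹ * d * e) := by group
  rw [← Module.End.mul_apply, ← map_mul, h2, map_mul, Module.End.mul_apply, ha _ h1]

lemma ucCoind_ρ_inv_ρ {A : Rep.{0} k D} (e : D) (a : A) : A.ρ e (A.ρ e⁻¹ a) = a := by
  rw [← Module.End.mul_apply, ← map_mul, mul_inv_cancel, map_one, Module.End.one_apply]

lemma ucCoind_ρ_ρ_inv {A : Rep.{0} k D} (e : D) (a : A) : A.ρ e⁻¹ (A.ρ e a) = a := by
  rw [← Module.End.mul_apply, ← map_mul, inv_mul_cancel, map_one, Module.End.one_apply]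

/-- **Smooth coinduction is right exact**: a surjective equivariant map `u : A → B`, `A` smooth
for the pulled-back levels, induces a surjection on coinduced modules. -/
theorem coIndAdd_surjective {A : Rep.{0} k D} {B : Rep.{0} k' D} (u : A →+ B)
    (hu : ∀ (d : D) (a : A), u (A.ρ d a) = B.ρ d (u a)) (hsurj : Function.Surjective u)
    (hA : IsSmooth (𝓤.comap r) A) :
    Function.Surjective (coIndAdd (r := r) (𝓤 := 𝓤) u hu) := by
  classical
  intro ψ
  obtain ⟨U, hU, hψ⟩ := coIndSub_isLC ψ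
  have hUn : U.Normal := 𝓤.normal U hU
  -- the values of `ψ` are fixed by `r⁻¹ U`
  have hfixU : ∀ (x : G) (d : D), r d ∈ U → B.ρ d ((ψ : G → B) x) = (ψ : G → B) x :=
    fun x d hd => coIndSub_value_fixed ψ hU hψ x hd
  -- step 1: a level `W ≤ U` such that every value of `ψ` has a lift fixed by `r⁻¹ W`
  obtain ⟨πU, hπU⟩ := exists_isCoindSection r U
  have hψ'LC : IsLC₁ 𝓤 (fun x => B.ρ (πU x)⁻¹ ((ψ : G → B) x)) := by
    refine ⟨U, hU, fun g s hs => ?_⟩
    obtain ⟨v, hv, hπ⟩ := hπU.spec_right g hs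
    show B.ρ (πU (g * s))⁻¹ ((ψ : G → B) (g * s)) = B.ρ (πU g)⁻¹ ((ψ : G → B) g)
    have hv' : r v⁻¹ ∈ U := by rw [map_inv]; exact U.inv_mem hv
    rw [hπ, hψ g s hs, mul_inv_rev, map_mul, Module.End.mul_apply]
    exact ucCoind_fixed_translate (hfixU g) (πU g)⁻¹ v⁻¹ hv'
  have hfin := hψ'LC.coind_finite_range
  choose L hL using hsurj
  obtain ⟨V, hV, hVfix⟩ := hA.coind_exists_level_of_finite
    (L '' Set.range (fun x => B.ρ (πU x)⁻¹ ((ψ : G → B) x))) (hfin.image L)
  obtain ⟨U', hU', rfl⟩ := hV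
  obtain ⟨W, hW, hWle⟩ := 𝓤.directed U hU U' hU'
  have hWn : W.Normal := 𝓤.normal W hW
  have hlift : ∀ (e : D) (x : G), ∃ a : A, u a = B.ρ e ((ψ : G → B) x) ∧
      ∀ d : D, r d ∈ W → A.ρ d a = a := by
    intro e x
    have h0 : ∀ d : D, r d ∈ W →
        A.ρ d (L (B.ρ (πU x)⁻¹ ((ψ : G → B) x))) = L (B.ρ (πU x)⁻¹ ((ψ : G → B) x)) :=
      fun d hd => hVfix _ ⟨_, ⟨x, rfl⟩, rfl⟩ d (hWle hd).2
    refine ⟨A.ρ (e * πU x) (L (B.ρ (πU x)⁻¹ ((ψ : G → B) x))), ?_,
      ucCoind_fixed_translate h0 _⟩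
    rw [hu, hL, map_mul, Module.End.mul_apply, ucCoind_ρ_inv_ρ]
  -- step 2: the lift
  obtain ⟨π, hπ⟩ := exists_isCoindSection r W
  have hP : ∀ x : G, ∃ a : A, u a = B.ρ (π x)⁻¹ ((ψ : G → B) x) ∧
      ∀ d : D, r d ∈ W → A.ρ d a = a := fun x => hlift (π x)⁻¹ x
  -- a choice of lifts depending only on the value
  have hch : ∃ L' : B → A, ∀ b : B, (∃ a : A, u a = b ∧ ∀ d : D, r d ∈ W → A.ρ d a = a) →
      (u (L' b) = b ∧ ∀ d : D, r d ∈ W → A.ρ d (L' b) = L' b) := by
    refine ⟨fun b => if h : ∃ a : A, u a = b ∧ ∀ d : D, r d ∈ W → A.ρ d a = a then h.choose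
      else 0, fun b hb => ?_⟩
    simp only [dif_pos hb]
    exact hb.choose_spec
  obtain ⟨L', hL'⟩ := hch
  have hb : ∀ (d : D) (x w : G), w ∈ W →
      B.ρ (π (r d * x * w))⁻¹ ((ψ : G → B) (r d * x * w)) = B.ρ (π x)⁻¹ ((ψ : G → B) x) := by
    intro d x w hw
    obtain ⟨v, hv, hπv⟩ := hπ.spec d x hw
    have hv' : r v⁻¹ ∈ U := by rw [map_inv]; exact U.inv_mem (hWle hv).1
    have h1 : (ψ : G → B) (r d * x * w) = B.ρ d ((ψ : G → B) x) := by
      rw [mul_assoc, coIndSub_equivariant, hψ x w (hWle hw).1]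
    rw [hπv, h1, mul_inv_rev, mul_inv_rev, map_mul, map_mul, Module.End.mul_apply,
      Module.End.mul_apply, ucCoind_ρ_ρ_inv]
    exact ucCoind_fixed_translate (hfixU x) (π x)⁻¹ v⁻¹ hv'
  refine ⟨⟨fun x => A.ρ (π x) (L' (B.ρ (π x)⁻¹ ((ψ : G → B) x))), fun d x => ?_,
    ⟨W, hW, fun g s hs => ?_⟩⟩, Subtype.ext (funext fun x => ?_)⟩
  · obtain ⟨v, hv, hπv⟩ := hπ.spec_left d x
    have hbx := hb d x 1 W.one_mem
    rw [mul_one] at hbx
    show A.ρ (π (r d * x)) (L' (B.ρ (π (r d * x))⁻¹ ((ψ : G → B) (r d * x)))) =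
      A.ρ d (A.ρ (π x) (L' (B.ρ (π x)⁻¹ ((ψ : G → B) x))))
    rw [hbx, hπv, map_mul, map_mul, Module.End.mul_apply, Module.End.mul_apply,
      (hL' _ (hP x)).2 v hv]
  · obtain ⟨v, hv, hπv⟩ := hπ.spec_right g hs
    have hbx := hb 1 g s hs
    rw [map_one, one_mul] at hbx
    show A.ρ (π (g * s)) (L' (B.ρ (π (g * s))⁻¹ ((ψ : G → B) (g * s)))) =
      A.ρ (π g) (L' (B.ρ (π g)⁻¹ ((ψ : G → B) g)))
    rw [hbx, hπv, map_mul, Module.End.mul_apply, (hL' _ (hP g)).2 v hv]
  · show u (A.ρ (π x) (L' (B.ρ (π x)⁻¹ ((ψ : G → B) x)))) = (ψ : G → B) x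
    rw [hu, (hL' _ (hP x)).1, ucCoind_ρ_inv_ρ]

end Surj

/-! ### the universal-coefficient datum of a coinduced complex -/

namespace UCData

section CoInd

variable {p : ℕ} {D G : Type} [Group D] [Group G] (r : D →* G) (𝓤 : Levels G)
  {K : Cx (ZMod p) D} {C I Q : Rep.{0} ℤ D}

/-- **The universal-coefficient datum of the coinduced complex** `coInd K`, for the exact
sequence `0 → coInd C → coInd I → coInd Q → 0` (`I` smooth for the pulled-back levels). -/
def coInd (Dat : UCData p K C I Q) (hI : IsSmooth (𝓤.comap r) I) :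
    UCData p (K.coInd r 𝓤) (Fermat.Agent.F4.coInd r 𝓤 C) (Fermat.Agent.F4.coInd r 𝓤 I)
      (Fermat.Agent.F4.coInd r 𝓤 Q) where
  ι := coIndAdd Dat.ι Dat.ι_comm
  π := coIndAdd Dat.π Dat.π_comm
  i0 := coIndAdd Dat.i0 Dat.i0_comm
  i1 := coIndAdd Dat.i1 Dat.i1_comm
  ι_inj := coIndAdd_injective _ _ Dat.ι_inj
  π_surj := coIndAdd_surjective _ _ Dat.π_surj hI
  exact := fun x => by
    constructor
    · intro h
      exact coIndAdd_exists_of_forall _ _ Dat.ι_inj x fun g =>
        (Dat.exact _).1 (congrFun (congrArg Subtype.val h) g)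
    · rintro ⟨c, rfl⟩
      exact Subtype.ext (funext fun g => Dat.π_ι _)
  ι_comm := fun _ _ => rfl
  π_comm := fun _ _ => rfl
  i0_comm := fun _ _ => rfl
  i1_comm := fun _ _ => rfl
  i0_inj := coIndAdd_injective _ _ Dat.i0_inj
  i1_inj := coIndAdd_injective _ _ Dat.i1_inj
  i0_range := fun x hx => coIndAdd_exists_of_forall _ _ Dat.i0_inj x fun g =>
    Dat.i0_range _ (congrFun (congrArg Subtype.val hx) g)
  i1_range := fun x hx => coIndAdd_exists_of_forall _ _ Dat.i1_inj x fun g =>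
    Dat.i1_range _ (congrFun (congrArg Subtype.val hx) g)
  comm := fun t => Subtype.ext (funext fun g => Dat.comm _)
  div := fun x => by
    obtain ⟨y, hy⟩ := coIndAdd_surjective (r := r) (𝓤 := 𝓤) (A := I) (B := I)
      (zsmulAddGroupHom (p : ℤ)) (fun d a => (map_zsmul (I.ρ d) (p : ℤ) a).symm) Dat.div hI x
    exact ⟨y, hy⟩

end CoInd

/-! ### products -/

section Pi

variable {p : ℕ} {G : Type} [Group G] {ι : Type}
  {K : ι → Cx (ZMod p) G} {C I Q : ι → Rep.{0} ℤ G}

/-- The componentwise map between products. -/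
def piAdd {A B : ι → Type} [∀ i, AddCommGroup (A i)] [∀ i, AddCommGroup (B i)]
    (u : ∀ i, A i →+ B i) : (∀ i, A i) →+ (∀ i, B i) where
  toFun x i := u i (x i)
  map_zero' := funext fun i => map_zero (u i)
  map_add' x y := funext fun i => map_add (u i) (x i) (y i)

@[simp] lemma piAdd_apply {A B : ι → Type} [∀ i, AddCommGroup (A i)] [∀ i, AddCommGroup (B i)]
    (u : ∀ i, A i →+ B i) (x : ∀ i, A i) (i : ι) : piAdd u x i = u i (x i) := rfl

/-- **The universal-coefficient datum of a product.** -/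
def pi (Dat : ∀ i, UCData p (K i) (C i) (I i) (Q i)) :
    UCData p (Cx.pi K) (cxPiRep C) (cxPiRep I) (cxPiRep Q) where
  ι := piAdd fun i => (Dat i).ι
  π := piAdd fun i => (Dat i).π
  i0 := piAdd fun i => (Dat i).i0
  i1 := piAdd fun i => (Dat i).i1
  ι_inj := fun x y h => funext fun i => (Dat i).ι_inj (congrFun h i)
  π_surj := fun y => ⟨fun i => ((Dat i).π_surj (y i)).choose,
    funext fun i => ((Dat i).π_surj (y i)).choose_spec⟩
  exact := fun x => by
    constructor
    · intro h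
      have h' : ∀ i, ∃ c : C i, (Dat i).ι c = x i := fun i =>
        ((Dat i).exact (x i)).1 (congrFun h i)
      exact ⟨fun i => (h' i).choose, funext fun i => (h' i).choose_spec⟩
    · rintro ⟨c, rfl⟩
      exact funext fun i => (Dat i).π_ι (c i)
  ι_comm := fun g c => funext fun i => (Dat i).ι_comm g (c i)
  π_comm := fun g x => funext fun i => (Dat i).π_comm g (x i)
  i0_comm := fun g x => funext fun i => (Dat i).i0_comm g (x i)
  i1_comm := fun g x => funext fun i => (Dat i).i1_comm g (x i)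
  i0_inj := fun x y h => funext fun i => (Dat i).i0_inj (congrFun h i)
  i1_inj := fun x y h => funext fun i => (Dat i).i1_inj (congrFun h i)
  i0_range := fun x hx => by
    have h' : ∀ i, ∃ t : (K i).K0, (Dat i).i0 t = x i := fun i =>
      (Dat i).i0_range (x i) (congrFun hx i)
    exact ⟨fun i => (h' i).choose, funext fun i => (h' i).choose_spec⟩
  i1_range := fun x hx => by
    have h' : ∀ i, ∃ t : (K i).K1, (Dat i).i1 t = x i := fun i =>
      (Dat i).i1_range (x i) (congrFun hx i)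
    exact ⟨fun i => (h' i).choose, funext fun i => (h' i).choose_spec⟩
  comm := fun t => funext fun i => (Dat i).comm (t i)
  div := fun x => ⟨fun i => ((Dat i).div (x i)).choose,
    funext fun i => ((Dat i).div (x i)).choose_spec⟩

end Pi

/-! ### products of coinductions -/

section CoindPi

variable {p : ℕ} {G : Type} [Group G] {ι : Type} {D : ι → Type} [∀ i, Group (D i)]
  (r : ∀ i, D i →* G) (𝓤 : Levels G)
  {K : ∀ i, Cx (ZMod p) (D i)} {C I Q : ∀ i, Rep.{0} ℤ (D i)}

/-- **The universal-coefficient datum of `∏ᵢ coInd_{rᵢ} Kᵢ`** (the shape of `coindKJ`). -/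
def coindPi (Dat : ∀ i, UCData p (K i) (C i) (I i) (Q i))
    (hI : ∀ i, IsSmooth (𝓤.comap (r i)) (I i)) :
    UCData p (Cx.pi fun i => (K i).coInd (r i) 𝓤)
      (cxPiRep fun i => Fermat.Agent.F4.coInd (r i) 𝓤 (C i))
      (cxPiRep fun i => Fermat.Agent.F4.coInd (r i) 𝓤 (I i))
      (cxPiRep fun i => Fermat.Agent.F4.coInd (r i) 𝓤 (Q i)) :=
  pi fun i => (Dat i).coInd (r i) 𝓤 (hI i)

end CoindPi

end UCData

end Fermat.Agent.F4
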