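import Fermat.Agent.F4.UC.Cup
import Fermat.Agent.F4.Hull.Basic
import Fermat.Agent.F4.Coind.Quot

/-!
# F4 / UC : the universal-coefficient datum of a quotient `K / μ[0]`

Let `D : UCData p K J I Q` (so `HH^r(K) = Ext^r(𝔽_p, J)`), `E ≤ J` a `G`-stable `p`-divisible
subgroup and `f : M[0] → K` a map of complexes identifying `M` with `E[p]`
(`D.i0 (f M) = D.ι (E[p])`).  Then the quotient complex `K.quot0 f = [K⁰ / f(M) → K¹]`
(`F4/Coind/Quot.lean`) computes `Ext^r(𝔽_p, J/E)`: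

  `D.quot0 h : UCData p (K.quot0 f) (quotRep J E _) (quotRep I (E.map D.ι) _) Q`.

This is the algebra of GLOB D1: `J` = semi-local units, `E` = `S`-units of `ℚ_S`, `M = μ_p`,
`C = J/E`, `KC = KJ / μ_p`.  The maps induced by `K → K.quot0 f` are compatible with the
relations `Rel2`, `Rel1α` (`Rel2.quot0`, `Rel1α.quot0`, `Rel1.quot0`, `Rel2α.quot0`).
-/

set_option autoImplicit false
set_option linter.unusedSectionVars false

open CategoryTheory groupCohomology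

namespace Fermat.Agent.F4

namespace UCData

variable {G : Type} [Group G] {p : ℕ} {K : Cx (ZMod p) G} {J I Q : Rep.{0} ℤ G}

/-- The hypotheses on `(E, f)`: `E ≤ J` is `G`-stable and `p`-divisible, and `f` identifies `M`
with `E[p]` inside `I`. -/
structure QuotHyp (D : UCData p K J I Q) {M : Rep.{0} (ZMod p) G} (f : CxHom (Cx.deg0 M) K)
    (E : AddSubgroup J) : Prop where
  stable : ∀ (g : G) (x : J), x ∈ E → J.ρ g x ∈ E
  div : ∀ e ∈ E, ∃ e' ∈ E, (p : ℤ) • e' = e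
  f_mem : ∀ m : M, ∃ e ∈ E, D.ι e = D.i0 (f.f0 m)
  mem_f : ∀ e ∈ E, (p : ℤ) • e = 0 → ∃ m : M, D.i0 (f.f0 m) = D.ι e

namespace QuotHyp

variable {D : UCData p K J I Q} {M : Rep.{0} (ZMod p) G} {f : CxHom (Cx.deg0 M) K}
  {E : AddSubgroup J} (h : D.QuotHyp f E)

include h

lemma map_stable (g : G) (x : I) (hx : x ∈ E.map D.ι) : I.ρ g x ∈ E.map D.ι := by
  obtain ⟨e, he, rfl⟩ := hx
  exact ⟨J.ρ g e, h.stable g e he, D.ι_comm g e⟩

/-- `C = J / E`. -/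
abbrev C : Rep.{0} ℤ G := quotRep J E h.stable

/-- `I_C = I / ι(E)`. -/
abbrev IC : Rep.{0} ℤ G := quotRep I (E.map D.ι) h.map_stable

/-- `qJ : J → J / E`. -/
def qJ : J →+ h.C := quotMk J E h.stable

/-- `qI : I → I / ι(E)`. -/
def qI : I →+ h.IC := quotMk I (E.map D.ι) h.map_stable

lemma qJ_surjective : Function.Surjective h.qJ := quotMk_surjective J E h.stable

lemma qI_surjective : Function.Surjective h.qI := quotMk_surjective I (E.map D.ι) h.map_stable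

lemma qJ_eq_zero_iff (x : J) : h.qJ x = 0 ↔ x ∈ E := quotMk_eq_zero_iff J E h.stable x

lemma qI_eq_zero_iff (x : I) : h.qI x = 0 ↔ ∃ e ∈ E, D.ι e = x :=
  (quotMk_eq_zero_iff I (E.map D.ι) h.map_stable x).trans AddSubgroup.mem_map

lemma qJ_comm (g : G) (x : J) : h.qJ (J.ρ g x) = h.C.ρ g (h.qJ x) := rfl

lemma qI_comm (g : G) (x : I) : h.qI (I.ρ g x) = h.IC.ρ g (h.qI x) := rfl

/-- `ι' : J / E → I / ι(E)`. -/
def ι' : h.C →+ h.IC :=
  QuotientAddGroup.map E (E.map D.ι) D.ι (AddSubgroup.le_comap_map D.ι E)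

lemma ι'_qJ (x : J) : h.ι' (h.qJ x) = h.qI (D.ι x) := rfl

/-- `π' : I / ι(E) → Q`. -/
def π' : h.IC →+ Q :=
  QuotientAddGroup.lift (E.map D.ι) D.π (by
    rintro _ ⟨e, _, rfl⟩
    exact D.π_ι e)

lemma π'_qI (x : I) : h.π' (h.qI x) = D.π x := rfl

lemma i0_f_mem (m : M) : D.i0 (f.f0 m) ∈ E.map D.ι := by
  obtain ⟨e, he, hem⟩ := h.f_mem m
  exact ⟨e, he, hem⟩

/-- `i0' : K⁰ / f(M) → I / ι(E)`. -/
def i0' : (K.quot0 f).K0 →+ h.IC :=
  QuotientAddGroup.lift (LinearMap.range f.f0).toAddSubgroup (h.qI.comp D.i0) (by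
    rintro _ ⟨m, rfl⟩
    exact (h.qI_eq_zero_iff _).2 (h.f_mem m))

lemma i0'_mk (t : K.K0) : h.i0' ((K.quot0Map f).f0 t) = h.qI (D.i0 t) := rfl

lemma quot0Map_f0_surjective : Function.Surjective (K.quot0Map f).f0 :=
  Submodule.mkQ_surjective _

lemma quot0Map_f0_eq_zero_iff (t : K.K0) : (K.quot0Map f).f0 t = 0 ↔ ∃ m : M, f.f0 m = t := by
  show (LinearMap.range f.f0).mkQ t = 0 ↔ _
  rw [Submodule.mkQ_apply, Submodule.Quotient.mk_eq_zero, LinearMap.mem_range]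
  exact Iff.rfl

lemma quot0_ρ_mk (g : G) (t : K.K0) :
    (K.quot0 f).K0.ρ g ((K.quot0Map f).f0 t) = (K.quot0Map f).f0 (K.K0.ρ g t) := rfl

lemma quot0_d_mk (t : K.K0) : (K.quot0 f).d ((K.quot0Map f).f0 t) = K.d t := rfl

end QuotHyp

/-- **The universal-coefficient datum of the quotient complex** `K / M[0]` for `J / E`. -/
def quot0 (D : UCData p K J I Q) {M : Rep.{0} (ZMod p) G} {f : CxHom (Cx.deg0 M) K}
    {E : AddSubgroup J} (h : D.QuotHyp f E) : UCData p (K.quot0 f) h.C h.IC Q where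
  ι := h.ι'
  π := h.π'
  i0 := h.i0'
  i1 := D.i1
  ι_inj := by
    rw [injective_iff_map_eq_zero]
    intro x hx
    obtain ⟨x, rfl⟩ := h.qJ_surjective x
    rw [h.ι'_qJ, h.qI_eq_zero_iff] at hx
    obtain ⟨e, he, hex⟩ := hx
    rw [h.qJ_eq_zero_iff, ← D.ι_inj hex]
    exact he
  π_surj := by
    intro x
    obtain ⟨y, rfl⟩ := D.π_surj x
    exact ⟨h.qI y, rfl⟩
  exact := by
    intro x
    obtain ⟨y, rfl⟩ := h.qI_surjective x
    rw [h.π'_qI, D.exact]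
    constructor
    · rintro ⟨c, rfl⟩
      exact ⟨h.qJ c, rfl⟩
    · rintro ⟨c, hc⟩
      obtain ⟨c, rfl⟩ := h.qJ_surjective c
      rw [h.ι'_qJ, ← sub_eq_zero, ← map_sub, h.qI_eq_zero_iff] at hc
      obtain ⟨e, _, hec⟩ := hc
      refine ⟨c - e, ?_⟩
      rw [map_sub, hec]
      abel
  ι_comm := by
    intro g c
    obtain ⟨c, rfl⟩ := h.qJ_surjective c
    rw [← h.qJ_comm, h.ι'_qJ, h.ι'_qJ, D.ι_comm, h.qI_comm]
  π_comm := by
    intro g x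
    obtain ⟨x, rfl⟩ := h.qI_surjective x
    rw [← h.qI_comm, h.π'_qI, h.π'_qI, D.π_comm]
  i0_comm := by
    intro g x
    obtain ⟨x, rfl⟩ := h.quot0Map_f0_surjective x
    rw [h.quot0_ρ_mk, h.i0'_mk, h.i0'_mk, D.i0_comm, h.qI_comm]
  i1_comm := D.i1_comm
  i0_inj := by
    rw [injective_iff_map_eq_zero]
    intro x hx
    obtain ⟨x, rfl⟩ := h.quot0Map_f0_surjective x
    rw [h.i0'_mk, h.qI_eq_zero_iff] at hx
    obtain ⟨e, he, hex⟩ := hx
    have hpe : (p : ℤ) • e = 0 := by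
      apply D.ι_inj
      rw [map_zsmul, hex, D.p_i0, map_zero]
    obtain ⟨m, hm⟩ := h.mem_f e he hpe
    rw [h.quot0Map_f0_eq_zero_iff]
    exact ⟨m, D.i0_inj (hm.trans hex)⟩
  i1_inj := D.i1_inj
  i0_range := by
    intro x hx
    obtain ⟨y, rfl⟩ := h.qI_surjective x
    rw [← map_zsmul, h.qI_eq_zero_iff] at hx
    obtain ⟨e, he, hey⟩ := hx
    obtain ⟨e', he', hpe'⟩ := h.div e he
    have ht : (p : ℤ) • (y - D.ι e') = 0 := by
      rw [smul_sub, ← map_zsmul, hpe', hey, sub_self]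
    obtain ⟨t, ht'⟩ := D.i0_range _ ht
    refine ⟨(K.quot0Map f).f0 t, ?_⟩
    rw [h.i0'_mk, ht', map_sub, sub_eq_self, h.qI_eq_zero_iff]
    exact ⟨e', he', rfl⟩
  i1_range := D.i1_range
  comm := by
    intro t
    obtain ⟨t, rfl⟩ := h.quot0Map_f0_surjective t
    rw [h.i0'_mk, h.π'_qI, h.quot0_d_mk]
    exact D.comm t
  div := by
    intro x
    obtain ⟨y, rfl⟩ := h.qI_surjective x
    obtain ⟨y', hy'⟩ := D.div y
    exact ⟨h.qI y', by rw [← map_zsmul, hy']⟩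

namespace QuotHyp

variable {D : UCData p K J I Q} {M : Rep.{0} (ZMod p) G} {f : CxHom (Cx.deg0 M) K}
  {E : AddSubgroup J} (h : D.QuotHyp f E)

include h

/-- `I / ι(E)` is smooth when `I` is. -/
lemma smoothIC {𝓤 : Levels G} (hI : IsSmooth 𝓤 I) : IsSmooth 𝓤 h.IC := by
  intro x
  obtain ⟨y, rfl⟩ := h.qI_surjective x
  obtain ⟨U, hU, hy⟩ := hI y
  exact ⟨U, hU, fun g hg => by rw [← h.qI_comm, hy g hg]⟩

/-! ### compatibility of the relations with `K → K / M[0]`, `J → J / E` -/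

lemma qI_δ1 (y : G → I) (q : G × G) :
    h.qI (δ1 I y q) = δ1 h.IC (fun g => h.qI (y g)) q := by
  simp only [δ1_apply, map_sub, map_add, h.qI_comm]

lemma qI_δ0 (s : I) (g : G) : h.qI (δ0 I s g) = δ0 h.IC (h.qI s) g := by
  show h.qI (I.ρ g s - s) = h.IC.ρ g (h.qI s) - h.qI s
  rw [map_sub, h.qI_comm]

/-- `β²` is compatible with the quotient maps. -/
lemma rel2_quot0 {𝓤 : Levels G} {z : T2 K} {w : G × G → J} (hrel : D.Rel2 𝓤 z w) :
    (D.quot0 h).Rel2 𝓤 ((K.quot0Map f).onT2 z) (fun q => h.qJ (w q)) := by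
  obtain ⟨y, hy, hπ, hι⟩ := hrel
  refine ⟨fun g => h.qI (y g), UC.isLC₁_map _ hy, fun g => ?_, fun q => ?_⟩
  · show h.π' (h.qI (y g)) = D.i1 (z.2 g)
    rw [h.π'_qI, hπ]
  · show h.ι' (h.qJ (w q)) = h.i0' ((K.quot0Map f).f0 (z.1 q)) - _
    rw [h.ι'_qJ, hι, map_sub, h.i0'_mk, h.qI_δ1]

/-- `α²` is compatible with the quotient maps. -/
lemma rel2α_quot0 {𝓤 : Levels G} {c : G → J} {z : T2 K} (hrel : D.Rel2α 𝓤 c z) :
    (D.quot0 h).Rel2α 𝓤 (fun g => h.qJ (c g)) ((K.quot0Map f).onT2 z) := by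
  obtain ⟨y, hy, hpy, ha, hb⟩ := hrel
  refine ⟨fun g => h.qI (y g), UC.isLC₁_map _ hy, fun g => ?_, fun q => ?_, fun g => ?_⟩
  · show (p : ℤ) • h.qI (y g) = h.ι' (h.qJ (c g))
    rw [← map_zsmul, hpy, h.ι'_qJ]
  · show h.i0' ((K.quot0Map f).f0 (z.1 q)) = _
    rw [h.i0'_mk, ha, h.qI_δ1]
  · show D.i1 (z.2 g) = h.π' (h.qI (y g))
    rw [h.π'_qI, hb]

/-- `β¹` is compatible with the quotient maps. -/
lemma rel1_quot0 {z : T1 K} {c : G → J} (hrel : D.Rel1 z c) :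
    (D.quot0 h).Rel1 ((K.quot0Map f).onT1 z) (fun g => h.qJ (c g)) := by
  obtain ⟨s, hπ, hι⟩ := hrel
  refine ⟨h.qI s, ?_, fun g => ?_⟩
  · show h.π' (h.qI s) = D.i1 z.2
    rw [h.π'_qI, hπ]
  · show h.ι' (h.qJ (c g)) = h.i0' ((K.quot0Map f).f0 (z.1 g)) - _
    rw [h.ι'_qJ, hι, map_sub, h.i0'_mk, h.qI_δ0]

/-- `α¹` is compatible with the quotient maps. -/
lemma rel1α_quot0 {x : J} {z : T1 K} (hrel : D.Rel1α x z) :
    (D.quot0 h).Rel1α (h.qJ x) ((K.quot0Map f).onT1 z) := by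
  obtain ⟨s, hps, ha, hb⟩ := hrel
  refine ⟨h.qI s, ?_, fun g => ?_, ?_⟩
  · show (p : ℤ) • h.qI s = h.ι' (h.qJ x)
    rw [← map_zsmul, hps, h.ι'_qJ]
  · show h.i0' ((K.quot0Map f).f0 (z.1 g)) = _
    rw [h.i0'_mk, ha, h.qI_δ0]
  · show D.i1 z.2 = h.π' (h.qI s)
    rw [h.π'_qI, hb]

end QuotHyp

end UCData

end Fermat.Agent.F4
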