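import Fermat.Agent.F4.UC.Seq1

/-!
# F4 / UC : compatibility of the universal-coefficient maps with the cup product (seat UCB)

For a character `χ : G → ZMod p` (additive, level-constant) and a total 1-cochain `z = (a, b)` of
`K`, `UC.cupχ z χ = ((g, h) ↦ χ h • a g, g ↦ χ g • b)` (this is `cupU` of `F4/Shapiro/Cup.lean`
and `cup1` for trivial coefficients).  For `x ∈ C^G` the *carry cochain* is
`UC.carryCo C χ x (g, h) = carry (χ g) (χ h) • x`, `carry u v = (u.val + v.val) / p ∈ {0, 1}`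
(this is `Loc.carry` of `F4/Loc/Cyclic.lean`; it represents `x ∪ δχ`, `δ` the Bockstein).

* `rel2_cupχ` : `Rel1α x z → Rel2 (z ∪ χ) (- carryCo x)`, i.e. `β²(α¹(x) ∪ χ) = - (x ∪ δχ)`;
* `cupχ_mem_ZZ2`, `carryCo_mem_Z2`, `β2_cupχ` (class form);
* `Rel2.zsmul`, `Rel2.add`, `Rel2.mem_Z2`, `Rel2.p_smul_mem_B2` (complements to `Seq2.lean`).
-/

set_option autoImplicit false
set_option linter.unusedSectionVars false

open CategoryTheory groupCohomology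

namespace Fermat.Agent.F4

variable {G : Type} [Group G]

namespace UC

/-- The cup product of a total 1-cochain of `K` with a function `χ : G → ZMod p`. -/
def cupχ {p : ℕ} {K : Cx (ZMod p) G} (z : T1 K) (χ : G → ZMod p) : T2 K :=
  (fun q => χ q.2 • z.1 q.1, fun g => χ g • z.2)

/-- The carry cochain `(g, h) ↦ carry (χ g) (χ h) • x`, a representative of `x ∪ δχ`. -/
def carryCo {p : ℕ} (C : Rep.{0} ℤ G) (χ : G → ZMod p) (x : C) : G × G → C :=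
  fun q => (((χ q.1).val + (χ q.2).val) / p) • x

lemma carryCo_apply {p : ℕ} (C : Rep.{0} ℤ G) (χ : G → ZMod p) (x : C) (q : G × G) :
    carryCo C χ x q = (((χ q.1).val + (χ q.2).val) / p) • x := rfl

/-- `(u + v).val + p * carry u v = u.val + v.val`. -/
lemma val_add_carry {p : ℕ} [NeZero p] (u v : ZMod p) :
    (u + v).val + p * ((u.val + v.val) / p) = u.val + v.val := by
  rw [ZMod.val_add]
  exact Nat.mod_add_div _ _

/-- In a `ZMod p`-module, `c • t = c.val • t`. -/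
lemma zmod_smul_eq_val_nsmul {p : ℕ} [NeZero p] {M : Type} [AddCommGroup M] [Module (ZMod p) M]
    (c : ZMod p) (t : M) : c • t = c.val • t := by
  conv_lhs => rw [← ZMod.natCast_zmod_val c]
  exact Nat.cast_smul_eq_nsmul (ZMod p) c.val t

end UC

namespace UCData

variable {p : ℕ} {K : Cx (ZMod p) G} {C I Q : Rep.{0} ℤ G} {D : UCData p K C I Q}
  {𝓤 : Levels G}

/-! ### complements on `Rel2` -/

lemma Rel2.zero : D.Rel2 𝓤 0 0 :=
  ⟨fun _ => 0, isLC₁_const 𝓤 (0 : I), fun g => by simp, fun q => by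
    simp only [Pi.zero_apply, Prod.fst_zero, map_zero, δ1_apply, sub_self, add_zero]⟩

lemma Rel2.neg {z : T2 K} {w : G × G → C} (h : D.Rel2 𝓤 z w) : D.Rel2 𝓤 (-z) (-w) := by
  have := (Rel2.zero (D := D) (𝓤 := 𝓤)).sub h
  simpa only [zero_sub] using this

lemma Rel2.add {z₁ z₂ : T2 K} {w₁ w₂ : G × G → C} (h₁ : D.Rel2 𝓤 z₁ w₁)
    (h₂ : D.Rel2 𝓤 z₂ w₂) : D.Rel2 𝓤 (z₁ + z₂) (w₁ + w₂) := by
  have := h₁.sub h₂.neg
  simpa only [sub_neg_eq_add] using this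

lemma Rel2.nsmul {z : T2 K} {w : G × G → C} (h : D.Rel2 𝓤 z w) (n : ℕ) :
    D.Rel2 𝓤 (n • z) (n • w) := by
  induction n with
  | zero => simpa only [zero_smul] using (Rel2.zero (D := D) (𝓤 := 𝓤))
  | succ n ih => simpa only [succ_nsmul] using ih.add h

lemma Rel2.zsmul {z : T2 K} {w : G × G → C} (h : D.Rel2 𝓤 z w) (n : ℤ) :
    D.Rel2 𝓤 (n • z) (n • w) := by
  obtain ⟨m, rfl | rfl⟩ := Int.eq_nat_or_neg n
  · simpa only [natCast_zsmul] using h.nsmul m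
  · simpa only [neg_smul, natCast_zsmul] using (h.nsmul m).neg

/-- The image of a cocycle is a cocycle. -/
lemma Rel2.mem_Z2 (hI : IsSmooth 𝓤 I) {z : T2 K} {w : G × G → C} (h : D.Rel2 𝓤 z w)
    (hz : z ∈ ZZ2 𝓤 K) : w ∈ Z2 𝓤 C := by
  obtain ⟨y, hy, hπ, hι⟩ := h
  obtain ⟨h1, h2, h3, h4⟩ := (mem_ZZ2_iff 𝓤 K z).1 hz
  have e : (fun q => D.ι (w q)) = fun q => D.i0 (z.1 q) - δ1 I y q := funext hι
  refine (UC.mem_Z2 𝓤 C w).2 ⟨?_, ?_⟩
  · funext q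
    apply D.ι_inj
    rw [D.ι_δ2, e, δ2_sub_fun, δ2_δ1_apply, sub_zero, ← D.i0_δ2, h1]
    simp only [Pi.zero_apply, map_zero]
  · apply UC.isLC₂_of_inj D.ι_inj
    rw [e]
    exact UC.isLC₂_sub (UC.isLC₂_map _ h3) (hy.δ1 hI)

/-- The image of a cocycle is killed by `p` in `H²(C)`. -/
lemma Rel2.p_smul_mem_B2 (hI : IsSmooth 𝓤 I) {z : T2 K} {w : G × G → C} (h : D.Rel2 𝓤 z w)
    (hz : z ∈ ZZ2 𝓤 K) : (fun q => (p : ℤ) • w q) ∈ B2 𝓤 C := by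
  have hw := h.mem_Z2 hI hz
  have h1 : (p : ℤ) • D.β2 hI (HH2π 𝓤 K ⟨z, hz⟩) = 0 := by
    rw [← map_zsmul, p_smul_HH2, map_zero]
  rw [D.β2_mk hI ⟨z, hz⟩ ⟨w, hw⟩ h, ← map_zsmul, UC.H2smπ_eq_zero_iff] at h1
  exact h1

/-! ### the cup product with a character -/

/-- `z ∪ χ` is a cocycle. -/
lemma cupχ_mem_ZZ2 [NeZero p] {z : T1 K} (hz : z ∈ ZZ1 𝓤 K) {χ : G → ZMod p}
    (hχ : ∀ g h, χ (g * h) = χ g + χ h) (hχLC : IsLC₁ 𝓤 χ) : UC.cupχ z χ ∈ ZZ2 𝓤 K := by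
  obtain ⟨h1, h2, h3⟩ := (mem_ZZ1_iff 𝓤 K z).1 hz
  have ha : ∀ g h, z.1 (g * h) = K.K0.ρ g (z.1 h) + z.1 g := by
    intro g h
    have := congrFun h1 (g, h)
    simp only [δ1_apply, Pi.zero_apply] at this
    rw [sub_add_eq_add_sub, sub_eq_zero] at this
    exact this.symm
  have hb : ∀ g, K.d (z.1 g) = K.K1.ρ g z.2 - z.2 := fun g => congrFun h2 g
  refine (mem_ZZ2_iff 𝓤 K _).2 ⟨?_, ?_, ?_, ?_⟩
  · funext q
    obtain ⟨g, h, j⟩ := q
    simp only [δ2_apply, UC.cupχ, Pi.zero_apply]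
    rw [ha g h, hχ h j, map_smul, smul_add, add_smul]
    abel
  · funext q
    obtain ⟨g, h⟩ := q
    simp only [Cx.dco_apply, δ1_apply, UC.cupχ]
    rw [map_smul, hb g, hχ g h, map_smul, smul_sub, add_smul]
    abel
  · obtain ⟨U, hU, hUa⟩ := h3
    obtain ⟨V, hV, hVχ⟩ := hχLC
    obtain ⟨W, hW, hWle⟩ := 𝓤.directed U hU V hV
    refine ⟨W, hW, fun g g' s s' hs hs' => ?_⟩
    simp only [UC.cupχ]
    rw [hUa g s (hWle hs).1, hVχ g' s' (hWle hs').2]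
  · obtain ⟨V, hV, hVχ⟩ := hχLC
    exact ⟨V, hV, fun g s hs => by simp only [UC.cupχ]; rw [hVχ g s hs]⟩

/-- **UCB**: `β²(α¹(x) ∪ χ) = - (x ∪ δχ)` on cocycles. -/
theorem rel2_cupχ [NeZero p] {x : C} {z : T1 K} (hrel : D.Rel1α x z) {χ : G → ZMod p}
    (hχ : ∀ g h, χ (g * h) = χ g + χ h) (hχLC : IsLC₁ 𝓤 χ) :
    D.Rel2 𝓤 (UC.cupχ z χ) (fun q => -UC.carryCo C χ x q) := by
  obtain ⟨s, hps, ha, hb⟩ := hrel
  refine ⟨fun g => (χ g).val • s, UC.isLC₁_map (fun c : ZMod p => c.val • s) hχLC,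
    fun g => ?_, fun q => ?_⟩
  · show D.π ((χ g).val • s) = D.i1 (χ g • z.2)
    rw [UC.zmod_smul_eq_val_nsmul, map_nsmul, map_nsmul, hb]
  · obtain ⟨g, h⟩ := q
    show D.ι (-((((χ g).val + (χ h).val) / p) • x))
      = D.i0 (χ h • z.1 g) - δ1 I (fun g => (χ g).val • s) (g, h)
    have hc := UC.val_add_carry (χ g) (χ h)
    have hc' : ((χ (g * h)).val : ℤ) = (χ g).val + (χ h).val
        - (p : ℤ) * ((((χ g).val + (χ h).val) / p : ℕ) : ℤ) := by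
      rw [hχ g h]
      have : (((χ g + χ h).val + p * (((χ g).val + (χ h).val) / p) : ℕ) : ℤ)
          = (((χ g).val + (χ h).val : ℕ) : ℤ) := by rw [hc]
      simp only [Nat.cast_add, Nat.cast_mul] at this
      linarith
    rw [UC.zmod_smul_eq_val_nsmul, map_neg, map_nsmul, map_nsmul, ha, ← hps]
    simp only [δ1_apply, δ0_apply, map_nsmul]
    simp only [← natCast_zsmul]
    rw [hc']
    module

/-- The carry cochain of an invariant element is a smooth cocycle. -/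
lemma carryCo_mem_Z2 [NeZero p] (D : UCData p K C I Q) (hI : IsSmooth 𝓤 I) {x : C}
    (hx : ∀ g, C.ρ g x = x) {χ : G → ZMod p} (hχ : ∀ g h, χ (g * h) = χ g + χ h)
    (hχLC : IsLC₁ 𝓤 χ) : UC.carryCo C χ x ∈ Z2 𝓤 C := by
  obtain ⟨z, hz, hrel⟩ := Rel1α.exists D hI hx
  have h := (rel2_cupχ hrel hχ hχLC).neg.mem_Z2 hI
    (Submodule.neg_mem _ (cupχ_mem_ZZ2 hz hχ hχLC))
  have e : (-fun q => -UC.carryCo C χ x q) = UC.carryCo C χ x := by
    funext q; simp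
  rwa [e] at h

/-- **UCB**, class form: `β²([z ∪ χ]) = - [x ∪ δχ]` when `α¹(x) = [z]`. -/
theorem β2_cupχ [NeZero p] (D : UCData p K C I Q) (hI : IsSmooth 𝓤 I) {x : C}
    (hx : ∀ g, C.ρ g x = x) {z : T1 K} (hz : z ∈ ZZ1 𝓤 K) (hrel : D.Rel1α x z)
    {χ : G → ZMod p} (hχ : ∀ g h, χ (g * h) = χ g + χ h) (hχLC : IsLC₁ 𝓤 χ) :
    D.β2 hI (HH2π 𝓤 K ⟨UC.cupχ z χ, cupχ_mem_ZZ2 hz hχ hχLC⟩)
      = -H2smπ 𝓤 C ⟨UC.carryCo C χ x, carryCo_mem_Z2 D hI hx hχ hχLC⟩ := by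
  rw [← map_neg]
  exact D.β2_mk hI _ _ (rel2_cupχ hrel hχ hχLC)

end UCData

end Fermat.Agent.F4
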