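import Fermat.Agent.F4.UC.Seq2

/-!
# F4 / UC : the universal-coefficient sequence in degree 1

For a datum `D : UCData p K C I Q` with `I` `𝓤`-smooth we construct additive maps

  `D.α1 hI : ↥(UC.Inv C) →+ HH1 𝓤 K`,   `D.β1 hI : HH1 𝓤 K →+ H1sm 𝓤 C`

and prove the exactness of `0 → C^G/p → HH¹(K) → H¹(C)[p] → 0`:

* `α1_eq_zero_iff` : `α1 x = 0 ↔ x ∈ p • C^G`;
* `β1_eq_zero_iff` : `β1 y = 0 ↔ y ∈ range α1`;
* `β1_range` : `x ∈ range β1 ↔ p • x = 0`.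

The maps are characterised on cocycles by the relations `Rel1α` and `Rel1` (`α1_mk`, `β1_mk`).
-/

set_option autoImplicit false
set_option linter.unusedSectionVars false

open CategoryTheory groupCohomology

namespace Fermat.Agent.F4

namespace UCData

variable {G : Type} [Group G] {p : ℕ} {K : Cx (ZMod p) G} {C I Q : Rep.{0} ℤ G}
  (D : UCData p K C I Q) (𝓤 : Levels G)

/-- The relation defining `β¹ : HH¹(K) → H¹(C)`: lift `b` to `s ∈ I`; then `a - δ⁰ s` takes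
values in `C`. -/
def Rel1 (z : T1 K) (c : G → C) : Prop :=
  ∃ s : I, D.π s = D.i1 z.2 ∧ ∀ g, D.ι (c g) = D.i0 (z.1 g) - δ0 I s g

/-- The relation defining `α¹ : C^G → HH¹(K)`: divide `x` by `p` in `I`, `p s = x`;
then `(δ⁰ s, π s)` is a cocycle of `K`. -/
def Rel1α (x : C) (z : T1 K) : Prop :=
  ∃ s : I, (p : ℤ) • s = D.ι x ∧ (∀ g, D.i0 (z.1 g) = δ0 I s g) ∧ D.i1 z.2 = D.π s

variable {D 𝓤}

lemma δ0_sub_apply (A : Rep.{0} ℤ G) (s₁ s₂ : A) (g : G) :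
    δ0 A (s₁ - s₂) g = δ0 A s₁ g - δ0 A s₂ g := by
  rw [map_sub]; rfl

lemma δ0_add_apply (A : Rep.{0} ℤ G) (s₁ s₂ : A) (g : G) :
    δ0 A (s₁ + s₂) g = δ0 A s₁ g + δ0 A s₂ g := by
  rw [map_add]; rfl

lemma δ0_neg_apply (A : Rep.{0} ℤ G) (s : A) (g : G) : δ0 A (-s) g = -δ0 A s g := by
  rw [map_neg]; rfl

lemma δ0_smul_apply (A : Rep.{0} ℤ G) (n : ℤ) (s : A) (g : G) :
    δ0 A (n • s) g = n • δ0 A s g := by
  simp only [δ0_apply, smul_sub, map_zsmul]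

lemma Rel1.sub {z₁ z₂ : T1 K} {c₁ c₂ : G → C} (h₁ : D.Rel1 z₁ c₁) (h₂ : D.Rel1 z₂ c₂) :
    D.Rel1 (z₁ - z₂) (c₁ - c₂) := by
  obtain ⟨s₁, hπ₁, hι₁⟩ := h₁
  obtain ⟨s₂, hπ₂, hι₂⟩ := h₂
  refine ⟨s₁ - s₂, ?_, fun g => ?_⟩
  · rw [map_sub, hπ₁, hπ₂, Prod.snd_sub, map_sub]
  · rw [Pi.sub_apply, map_sub, hι₁, hι₂, Prod.fst_sub, Pi.sub_apply, map_sub, δ0_sub_apply]
    abel

lemma Rel1α.sub {x₁ x₂ : C} {z₁ z₂ : T1 K} (h₁ : D.Rel1α x₁ z₁) (h₂ : D.Rel1α x₂ z₂) :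
    D.Rel1α (x₁ - x₂) (z₁ - z₂) := by
  obtain ⟨s₁, hp₁, ha₁, hb₁⟩ := h₁
  obtain ⟨s₂, hp₂, ha₂, hb₂⟩ := h₂
  refine ⟨s₁ - s₂, ?_, fun g => ?_, ?_⟩
  · rw [smul_sub, hp₁, hp₂, map_sub]
  · rw [Prod.fst_sub, Pi.sub_apply, map_sub, ha₁, ha₂, δ0_sub_apply]
  · rw [Prod.snd_sub, map_sub, hb₁, hb₂, map_sub]

/-- Existence for `Rel1`. -/
lemma Rel1.exists (D : UCData p K C I Q) (hI : IsSmooth 𝓤 I) {z : T1 K} (hz : z ∈ ZZ1 𝓤 K) :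
    ∃ c : G → C, c ∈ Z1 𝓤 C ∧ D.Rel1 z c := by
  obtain ⟨h1, h2, h3⟩ := (mem_ZZ1_iff 𝓤 K z).1 hz
  have hker : ∀ g, D.π (D.i0 (z.1 g) - δ0 I (D.sec (D.i1 z.2)) g) = 0 := by
    intro g
    rw [map_sub, D.comm, D.π_δ0, D.π_sec]
    have e1 : K.d (z.1 g) = δ0 K.K1 z.2 g := congrFun h2 g
    rw [e1, D.i1_δ0, sub_self]
  have e : (fun g => D.ι (D.preC _ (hker g)))
      = fun g => D.i0 (z.1 g) - δ0 I (D.sec (D.i1 z.2)) g :=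
    funext fun g => D.ι_preC _ _
  refine ⟨fun g => D.preC _ (hker g), (UC.mem_Z1 𝓤 C _).2 ⟨?_, ?_⟩,
    D.sec (D.i1 z.2), D.π_sec _, fun g => D.ι_preC _ (hker g)⟩
  · funext q
    apply D.ι_inj
    rw [D.ι_δ1, e, δ1_sub_fun, δ1_δ0_apply, sub_zero, ← D.i0_δ1, h1]
    simp only [Pi.zero_apply, map_zero]
  · apply UC.isLC₁_of_inj D.ι_inj
    rw [e]
    exact UC.isLC₁_sub (UC.isLC₁_map _ h3) (isLC₁_δ0 hI _)

/-- `Rel1` sends coboundaries to coboundaries. -/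
lemma Rel1.mem_B1 {z : T1 K} {c : G → C} (hrel : D.Rel1 z c) (hz : z ∈ BB1 K) : c ∈ B1 C := by
  obtain ⟨s, hπ, hι⟩ := hrel
  obtain ⟨x₀, rfl⟩ := (mem_BB1_iff K z).1 hz
  have hker : D.π (s - D.i0 x₀) = 0 := by
    rw [map_sub, hπ, D.comm]
    simp only [D0_apply, sub_self]
  refine (UC.mem_B1 C c).2 ⟨-D.preC _ hker, funext fun g => ?_⟩
  apply D.ι_inj
  rw [hι, D.ι_δ0, map_neg, D.ι_preC, δ0_neg_apply, δ0_sub_apply]
  simp only [D0_apply, D.i0_δ0]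
  abel

/-- Surjectivity of `Rel1` onto the `p`-torsion classes. -/
lemma Rel1.surj (D : UCData p K C I Q) (hI : IsSmooth 𝓤 I) {c : G → C} (hc : c ∈ Z1 𝓤 C)
    (hp : (fun g => (p : ℤ) • c g) ∈ B1 C) : ∃ z : T1 K, z ∈ ZZ1 𝓤 K ∧ D.Rel1 z c := by
  obtain ⟨hc1, hc2⟩ := (UC.mem_Z1 𝓤 C c).1 hc
  obtain ⟨x, hx⟩ := (UC.mem_B1 C _).1 hp
  have hps : (p : ℤ) • D.divp (-D.ι x) = -D.ι x := D.p_divp _
  have ha : ∀ g, (p : ℤ) • (D.ι (c g) + δ0 I (D.divp (-D.ι x)) g) = 0 := by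
    intro g
    have e2 : (p : ℤ) • c g = δ0 C x g := (congrFun hx g).symm
    rw [smul_add, ← δ0_smul_apply, hps, ← map_zsmul, e2, δ0_neg_apply, D.ι_δ0, add_neg_cancel]
  have hb : (p : ℤ) • D.π (D.divp (-D.ι x)) = 0 := by
    rw [← map_zsmul, hps, map_neg, D.π_ι, neg_zero]
  have ea : (fun g => D.i0 (D.pre0 _ (ha g)))
      = fun g => D.ι (c g) + δ0 I (D.divp (-D.ι x)) g :=
    funext fun g => D.i0_pre0 _ _
  refine ⟨(fun g => D.pre0 _ (ha g), D.pre1 _ hb),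
    (mem_ZZ1_iff 𝓤 K _).2 ⟨?_, ?_, ?_⟩, D.divp (-D.ι x), (D.i1_pre1 _ hb).symm, fun g => ?_⟩
  · funext q
    apply D.i0_inj
    rw [D.i0_δ1, ea, δ1_add_fun, δ1_δ0_apply, add_zero, ← D.ι_δ1, hc1]
    simp only [Pi.zero_apply, map_zero]
  · funext g
    apply D.i1_inj
    rw [Cx.dco_apply, ← D.comm, D.i0_pre0, D.i1_δ0, D.i1_pre1, map_add, D.π_ι, zero_add,
      D.π_δ0]
  · apply UC.isLC₁_of_inj D.i0_inj
    rw [ea]
    exact UC.isLC₁_add (UC.isLC₁_map _ hc2) (isLC₁_δ0 hI _)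
  · rw [D.i0_pre0, add_sub_cancel_right]

/-- Existence for `Rel1α`. -/
lemma Rel1α.exists (D : UCData p K C I Q) (hI : IsSmooth 𝓤 I) {x : C}
    (hx : ∀ g, C.ρ g x = x) : ∃ z : T1 K, z ∈ ZZ1 𝓤 K ∧ D.Rel1α x z := by
  have hps : (p : ℤ) • D.divp (D.ι x) = D.ι x := D.p_divp _
  have ha : ∀ g, (p : ℤ) • δ0 I (D.divp (D.ι x)) g = 0 := by
    intro g
    rw [← δ0_smul_apply, hps, ← D.ι_δ0, δ0_apply, hx g, sub_self, map_zero]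
  have hb : (p : ℤ) • D.π (D.divp (D.ι x)) = 0 := by
    rw [← map_zsmul, hps, D.π_ι]
  have ea : (fun g => D.i0 (D.pre0 _ (ha g))) = fun g => δ0 I (D.divp (D.ι x)) g :=
    funext fun g => D.i0_pre0 _ _
  refine ⟨(fun g => D.pre0 _ (ha g), D.pre1 _ hb),
    (mem_ZZ1_iff 𝓤 K _).2 ⟨?_, ?_, ?_⟩, D.divp (D.ι x), hps, fun g => D.i0_pre0 _ (ha g),
    D.i1_pre1 _ hb⟩
  · funext q
    apply D.i0_inj
    rw [D.i0_δ1, ea, δ1_δ0_apply]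
    simp only [Pi.zero_apply, map_zero]
  · funext g
    apply D.i1_inj
    rw [Cx.dco_apply, ← D.comm, D.i0_pre0, D.i1_δ0, D.i1_pre1, D.π_δ0]
  · apply UC.isLC₁_of_inj D.i0_inj
    rw [ea]
    exact isLC₁_δ0 hI _

/-- `Rel1α` sends `0` to coboundaries. -/
lemma Rel1α.mem_BB1 {z : T1 K} (hrel : D.Rel1α 0 z) : z ∈ BB1 K := by
  obtain ⟨s, hps, ha, hb⟩ := hrel
  rw [map_zero] at hps
  refine (mem_BB1_iff K z).2 ⟨D.pre0 s hps, Prod.ext ?_ ?_⟩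
  · funext g
    apply D.i0_inj
    rw [ha]
    simp only [D0_apply]
    rw [D.i0_δ0, D.i0_pre0]
  · apply D.i1_inj
    rw [hb]
    simp only [D0_apply]
    rw [← D.comm, D.i0_pre0]

/-- `β¹ ∘ α¹ = 0` on cocycles. -/
lemma Rel1α.rel1_zero {x : C} {z : T1 K} (hrel : D.Rel1α x z) : D.Rel1 z 0 := by
  obtain ⟨s, hps, ha, hb⟩ := hrel
  refine ⟨s, hb.symm, fun g => ?_⟩
  rw [ha, sub_self, Pi.zero_apply, map_zero]

/-- Exactness at `HH¹(K)` on cocycles. -/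
lemma Rel1.ker {z : T1 K} {c : G → C} (hrel : D.Rel1 z c) (hc : c ∈ B1 C) :
    ∃ x : C, (∀ g, C.ρ g x = x) ∧ D.Rel1α x z := by
  obtain ⟨s, hπ, hι⟩ := hrel
  obtain ⟨e, rfl⟩ := (UC.mem_B1 C c).1 hc
  have hδ : ∀ g, δ0 I (s + D.ι e) g = D.i0 (z.1 g) := by
    intro g
    rw [δ0_add_apply, ← D.ι_δ0, hι]
    abel
  have hπ' : D.π (s + D.ι e) = D.i1 z.2 := by
    rw [map_add, D.π_ι, add_zero, hπ]
  have hker : D.π ((p : ℤ) • (s + D.ι e)) = 0 := by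
    rw [map_zsmul, hπ', D.p_i1]
  refine ⟨D.preC _ hker, fun g => ?_, s + D.ι e, (D.ι_preC _ hker).symm,
    fun g => (hδ g).symm, hπ'.symm⟩
  apply D.ι_inj
  have h0 : D.ι (δ0 C (D.preC _ hker) g) = 0 := by
    rw [D.ι_δ0, D.ι_preC, δ0_smul_apply, hδ, D.p_i0]
  rw [δ0_apply, map_sub, sub_eq_zero] at h0
  exact h0

/-- Injectivity of `α¹` modulo `p` on cocycles. -/
lemma Rel1α.ker {x : C} {z : T1 K} (hrel : D.Rel1α x z) (hz : z ∈ BB1 K) :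
    ∃ x' : C, (∀ g, C.ρ g x' = x') ∧ x = (p : ℤ) • x' := by
  obtain ⟨s, hps, ha, hb⟩ := hrel
  obtain ⟨t, rfl⟩ := (mem_BB1_iff K z).1 hz
  have hker : D.π (s - D.i0 t) = 0 := by
    rw [map_sub, ← hb, D.comm]
    simp only [D0_apply, sub_self]
  have hδ : ∀ g, δ0 I (s - D.i0 t) g = 0 := by
    intro g
    rw [δ0_sub_apply, ← ha]
    simp only [D0_apply, D.i0_δ0, sub_self]
  refine ⟨D.preC _ hker, fun g => ?_, ?_⟩
  · apply D.ι_inj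
    have h0 : D.ι (δ0 C (D.preC _ hker) g) = 0 := by
      rw [D.ι_δ0, D.ι_preC, hδ]
    rw [δ0_apply, map_sub, sub_eq_zero] at h0
    exact h0
  · apply D.ι_inj
    rw [map_zsmul, D.ι_preC, smul_sub, hps, D.p_i0, sub_zero]

end UCData

/-! ### The class maps -/

namespace UC

/-- The invariants `A^G` as an additive subgroup. -/
def Inv {k G : Type} [CommRing k] [Group G] (A : Rep.{0} k G) : AddSubgroup A where
  carrier := {x | ∀ g : G, A.ρ g x = x}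
  zero_mem' := fun g => map_zero _
  add_mem' := fun {a b} ha hb g => by rw [map_add, ha g, hb g]
  neg_mem' := fun {a} ha g => by rw [map_neg, ha g]

lemma mem_Inv {k G : Type} [CommRing k] [Group G] (A : Rep.{0} k G) (x : A) :
    x ∈ Inv A ↔ ∀ g : G, A.ρ g x = x := Iff.rfl

end UC

namespace UCData

variable {G : Type} [Group G] {p : ℕ} {K : Cx (ZMod p) G} {C I Q : Rep.{0} ℤ G}
  (D : UCData p K C I Q) {𝓤 : Levels G} (hI : IsSmooth 𝓤 I)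

/-- `β¹` on cocycles. -/
noncomputable def β1Z : ↥(ZZ1 𝓤 K) →+ H1sm 𝓤 C :=
  AddMonoidHom.mk' (fun z => H1smπ 𝓤 C ⟨(Rel1.exists D hI z.2).choose,
    (Rel1.exists D hI z.2).choose_spec.1⟩) (by
    intro z₁ z₂
    rw [← map_add, UC.H1smπ_eq_iff]
    have h₁ := (Rel1.exists D hI z₁.2).choose_spec.2
    have h₂ := (Rel1.exists D hI z₂.2).choose_spec.2
    have h₃ := (Rel1.exists D hI (z₁ + z₂).2).choose_spec.2
    have h4 := (h₃.sub h₁).sub h₂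
    have h5 := Rel1.mem_B1 h4 (by
      rw [show ((z₁ + z₂ : ↥(ZZ1 𝓤 K)) : T1 K) - ↑z₁ - ↑z₂ = 0 from by
        rw [Submodule.coe_add]; abel]
      exact Submodule.zero_mem _)
    change (Rel1.exists D hI (z₁ + z₂).2).choose - ((Rel1.exists D hI z₁.2).choose
      + (Rel1.exists D hI z₂.2).choose) ∈ B1 C
    rw [← sub_sub]
    exact h5)

lemma β1Z_eq (z : ↥(ZZ1 𝓤 K)) (c : ↥(Z1 𝓤 C)) (hrel : D.Rel1 (z : T1 K) (c : G → C)) :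
    D.β1Z hI z = H1smπ 𝓤 C c := by
  show H1smπ 𝓤 C _ = _
  rw [UC.H1smπ_eq_iff]
  have h₁ := (Rel1.exists D hI z.2).choose_spec.2
  refine Rel1.mem_B1 (h₁.sub hrel) ?_
  rw [sub_self]
  exact Submodule.zero_mem _

/-- **`β¹ : HH¹(K) → H¹(C)`**. -/
noncomputable def β1 : HH1 𝓤 K →+ H1sm 𝓤 C :=
  QuotientAddGroup.lift _ (D.β1Z hI) (by
    intro z hz
    have hz' : (z : T1 K) ∈ BB1 K := hz
    rw [AddMonoidHom.mem_ker]
    have h₁ := (Rel1.exists D hI z.2).choose_spec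
    show H1smπ 𝓤 C _ = 0
    rw [UC.H1smπ_eq_zero_iff]
    exact Rel1.mem_B1 h₁.2 hz')

/-- Characterisation of `β¹` on classes. -/
lemma β1_mk (z : ↥(ZZ1 𝓤 K)) (c : ↥(Z1 𝓤 C)) (hrel : D.Rel1 (z : T1 K) (c : G → C)) :
    D.β1 hI (HH1π 𝓤 K z) = H1smπ 𝓤 C c :=
  D.β1Z_eq hI z c hrel

/-- **`α¹ : C^G → HH¹(K)`**. -/
noncomputable def α1 : ↥(UC.Inv C) →+ HH1 𝓤 K :=
  AddMonoidHom.mk' (fun x => HH1π 𝓤 K ⟨(Rel1α.exists D hI x.2).choose,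
    (Rel1α.exists D hI x.2).choose_spec.1⟩) (by
    intro x₁ x₂
    rw [← map_add, HH1π_eq_iff]
    have h₁ := (Rel1α.exists D hI x₁.2).choose_spec.2
    have h₂ := (Rel1α.exists D hI x₂.2).choose_spec.2
    have h₃ := (Rel1α.exists D hI (x₁ + x₂).2).choose_spec.2
    have h4 := (h₃.sub h₁).sub h₂
    rw [show ((x₁ + x₂ : ↥(UC.Inv C)) : C) - ↑x₁ - ↑x₂ = 0 from by
        rw [AddSubgroup.coe_add]; abel] at h4
    have h5 := Rel1α.mem_BB1 h4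
    change (Rel1α.exists D hI (x₁ + x₂).2).choose - ((Rel1α.exists D hI x₁.2).choose
      + (Rel1α.exists D hI x₂.2).choose) ∈ BB1 K
    rw [← sub_sub]
    exact h5)

/-- Characterisation of `α¹`. -/
lemma α1_mk (x : ↥(UC.Inv C)) (z : ↥(ZZ1 𝓤 K)) (hrel : D.Rel1α (x : C) (z : T1 K)) :
    D.α1 hI x = HH1π 𝓤 K z := by
  show HH1π 𝓤 K _ = _
  rw [HH1π_eq_iff]
  have h₁ := (Rel1α.exists D hI x.2).choose_spec.2
  have h2 := h₁.sub hrel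
  rw [sub_self] at h2
  exact Rel1α.mem_BB1 h2

/-! ### Exactness of `0 → C^G/p → HH¹(K) → H¹(C)[p] → 0` -/

/-- `HH¹(K)` is killed by `p`. -/
lemma p_smul_HH1 (y : HH1 𝓤 K) : (p : ℤ) • y = 0 := UC.p_smul_eq_zero y

/-- `β¹ ∘ α¹ = 0`. -/
theorem β1_α1 (x : ↥(UC.Inv C)) : D.β1 hI (D.α1 hI x) = 0 := by
  obtain ⟨z, hz, hrel⟩ := Rel1α.exists D hI x.2
  rw [D.α1_mk hI x ⟨z, hz⟩ hrel, D.β1_mk hI ⟨z, hz⟩ 0 hrel.rel1_zero, map_zero]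

/-- Exactness at `HH¹(K)`. -/
theorem β1_eq_zero_iff (y : HH1 𝓤 K) :
    D.β1 hI y = 0 ↔ ∃ x : ↥(UC.Inv C), D.α1 hI x = y := by
  constructor
  · intro h
    obtain ⟨z, rfl⟩ := HH1π_surjective 𝓤 K y
    obtain ⟨c, hc, hrel⟩ := Rel1.exists D hI z.2
    rw [D.β1_mk hI z ⟨c, hc⟩ hrel, UC.H1smπ_eq_zero_iff] at h
    obtain ⟨x, hx, hα⟩ := hrel.ker h
    exact ⟨⟨x, hx⟩, D.α1_mk hI ⟨x, hx⟩ z hα⟩
  · rintro ⟨x, rfl⟩
    exact D.β1_α1 hI x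

/-- The image of `β¹` is the `p`-torsion of `H¹(C)`. -/
theorem β1_range (x : H1sm 𝓤 C) : (∃ y : HH1 𝓤 K, D.β1 hI y = x) ↔ (p : ℤ) • x = 0 := by
  constructor
  · rintro ⟨y, rfl⟩
    rw [← map_zsmul, p_smul_HH1, map_zero]
  · intro h
    obtain ⟨c, rfl⟩ := UC.H1smπ_surjective C x
    rw [← map_zsmul, UC.H1smπ_eq_zero_iff] at h
    have h' : (fun g => (p : ℤ) • (c : G → C) g) ∈ B1 C := h
    obtain ⟨z, hz, hrel⟩ := Rel1.surj D hI c.2 h'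
    exact ⟨HH1π 𝓤 K ⟨z, hz⟩, D.β1_mk hI ⟨z, hz⟩ c hrel⟩

/-- The kernel of `α¹` is `p • C^G`. -/
theorem α1_eq_zero_iff (x : ↥(UC.Inv C)) :
    D.α1 hI x = 0 ↔ ∃ x' : ↥(UC.Inv C), x = (p : ℤ) • x' := by
  constructor
  · intro h
    obtain ⟨z, hz, hrel⟩ := Rel1α.exists D hI x.2
    rw [D.α1_mk hI x ⟨z, hz⟩ hrel, HH1π_eq_zero_iff] at h
    obtain ⟨x', hx', hxx'⟩ := hrel.ker h
    refine ⟨⟨x', hx'⟩, Subtype.ext ?_⟩
    rw [hxx']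
    rfl
  · rintro ⟨x', rfl⟩
    rw [map_zsmul, p_smul_HH1]

/-- If `H¹(C)` has no `p`-torsion (e.g. is zero), then `α¹` is surjective:
`C^G/p ≅ HH¹(K)`. -/
theorem α1_surjective (h : ∀ x : H1sm 𝓤 C, (p : ℤ) • x = 0 → x = 0) :
    Function.Surjective (D.α1 hI) := by
  intro y
  refine (D.β1_eq_zero_iff hI y).1 (h _ ?_)
  rw [← map_zsmul, p_smul_HH1, map_zero]

/-- If `H¹(C) = 0` on cocycles (Hilbert 90), then `α¹` is surjective. -/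
theorem α1_surjective_of_H1 (h : ∀ c : G → C, c ∈ Z1 𝓤 C → c ∈ B1 C) :
    Function.Surjective (D.α1 hI) := by
  refine D.α1_surjective hI fun x _ => ?_
  obtain ⟨c, rfl⟩ := UC.H1smπ_surjective C x
  rw [UC.H1smπ_eq_zero_iff]
  exact h _ c.2

end UCData

end Fermat.Agent.F4
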